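import Mathlib.FieldTheory.PrimitiveElement
import Mathlib.Algebra.MvPolynomial.PDeriv
import Mathlib.Algebra.Polynomial.Bivariate
import Fermat.Agent.Curve.Jac.Points

/-!
# Plane models of function fields and their smooth points

Every transcendental `x` is the first coordinate of a plane model, and over each smooth point of
the model there is exactly one place, at which `x` minus its value is a uniformizer.
-/

set_option autoImplicit false

noncomputable section

open AlgebraicCurve IntermediateField Module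
open scoped Polynomial

namespace FermatAgent.MW.Halve

open FermatAgent.Curve FermatAgent.Curve.Jac MvPolynomial

section Decomp

variable {K : Type*} [CommRing K]

theorem exists_decomp (G : MvPolynomial (Fin 2) K) (p : Fin 2 → K) :
    ∃ G₁ G₂ : MvPolynomial (Fin 2) K,
      G = C (eval p G) + (X 0 - C (p 0)) * G₁ + (X 1 - C (p 1)) * G₂ := by
  induction G using MvPolynomial.induction_on with
  | C a => exact ⟨0, 0, by simp⟩
  | add G H hG hH =>
    obtain ⟨a, b, h1⟩ := hG
    obtain ⟨c, d, h2⟩ := hH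
    refine ⟨a + c, b + d, ?_⟩
    rw [map_add, map_add]
    linear_combination h1 + h2
  | mul_X G i hG =>
    obtain ⟨a, b, h1⟩ := hG
    fin_cases i
    · refine ⟨a * X 0 + C (eval p G), b * X 0, ?_⟩
      simp only [map_mul, eval_X, Fin.zero_eta]
      linear_combination (X 0) * h1
    · refine ⟨a * X 1, b * X 1 + C (eval p G), ?_⟩
      simp only [map_mul, eval_X, Fin.mk_one]
      linear_combination (X 1) * h1

theorem eval_pderiv_of_decomp {G G₁ G₂ : MvPolynomial (Fin 2) K} {p : Fin 2 → K}
    (h : G = C (eval p G) + (X 0 - C (p 0)) * G₁ + (X 1 - C (p 1)) * G₂) :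
    eval p (pderiv 0 G) = eval p G₁ ∧ eval p (pderiv 1 G) = eval p G₂ := by
  constructor <;> conv_lhs => rw [h]
  · simp [Derivation.leibniz, pderiv_X]
  · simp [Derivation.leibniz, pderiv_X]

/-- The derivation along the curve `R = 0`. -/
def tang (R G : MvPolynomial (Fin 2) K) : MvPolynomial (Fin 2) K :=
  pderiv 0 G * pderiv 1 R - pderiv 1 G * pderiv 0 R

end Decomp

variable (K F : Type*) [Field K] [Field F] [Algebra K F]

/-- A plane model `R (x, y) = 0`. -/
structure Model where
  /-- the transcendental coordinate -/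
  x : F
  /-- the coordinate integral over `x` -/
  y : F
  /-- the plane equation -/
  R : MvPolynomial (Fin 2) K
  tr : Transcendental K x
  aeval_R : aeval ![x, y] R = 0
  sep : aeval ![x, y] (pderiv 1 R) ≠ 0
  int : ∀ v : Place K F, OrdGE v 0 x → OrdGE v 0 y
  kills : ∀ G : MvPolynomial (Fin 2) K, aeval ![x, y] G = 0 →
    ∀ p : Fin 2 → K, eval p R = 0 → eval p G = 0
  frac : ∀ f : F, ∃ (G : MvPolynomial (Fin 2) K) (e : K[X]),
    Polynomial.aeval x e ≠ 0 ∧ f * Polynomial.aeval x e = aeval ![x, y] G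

variable {K F}

/-! ### Bivariate polynomials -/

/-- `G (X, Y)` as a polynomial in `Y` over `K[X]`. -/
def toBiv : MvPolynomial (Fin 2) K →ₐ[K] K[X][X] :=
  aeval ![Polynomial.C Polynomial.X, Polynomial.X]

/-- A polynomial in `Y` over `K[X]` as one in two variables. -/
def ofBiv : K[X][X] →+* MvPolynomial (Fin 2) K :=
  Polynomial.eval₂RingHom
    (Polynomial.aeval (R := K) (X 0 : MvPolynomial (Fin 2) K)).toRingHom (X 1)

theorem aeval_eq_eval₂_toBiv (x y : F) (G : MvPolynomial (Fin 2) K) :
    aeval ![x, y] G = (toBiv G).eval₂ (Polynomial.aeval (R := K) x).toRingHom y := by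
  induction G using MvPolynomial.induction_on with
  | C a => simp [toBiv, IsScalarTower.algebraMap_apply K K[X] K[X][X], Polynomial.algebraMap_eq]
  | add G H hG hH => rw [map_add, map_add, Polynomial.eval₂_add, hG, hH]
  | mul_X G i hG =>
    rw [map_mul, map_mul, Polynomial.eval₂_mul, hG, aeval_X]
    congr 1
    fin_cases i <;> simp [toBiv]

theorem aeval_ofBiv (x y : F) (q : K[X][X]) :
    aeval ![x, y] (ofBiv q) = q.eval₂ (Polynomial.aeval (R := K) x).toRingHom y := by
  induction q using Polynomial.induction_on' with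
  | add p q hp hq => rw [map_add, map_add, Polynomial.eval₂_add, hp, hq]
  | monomial i a =>
    simp only [ofBiv, Polynomial.coe_eval₂RingHom, Polynomial.eval₂_monomial, map_mul, map_pow,
      aeval_X, AlgHom.toRingHom_eq_coe, RingHom.coe_coe]
    rw [← Polynomial.aeval_algHom_apply]
    simp only [aeval_X, Matrix.cons_val_zero, Matrix.cons_val_one]

theorem evalEval_eq_eval₂ (q : K[X][X]) (x y : K) :
    q.evalEval x y = q.eval₂ (Polynomial.aeval (R := K) x).toRingHom y := by
  rw [← Polynomial.eval₂_evalRingHom]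
  congr 1

theorem eval_eq_aeval_pair (p : Fin 2 → K) (G : MvPolynomial (Fin 2) K) :
    eval p G = aeval ![p 0, p 1] G := by
  rw [show ![p 0, p 1] = p from funext fun i => by fin_cases i <;> rfl]
  rfl

theorem eval_ofBiv (p : Fin 2 → K) (q : K[X][X]) :
    eval p (ofBiv q) = q.evalEval (p 0) (p 1) := by
  rw [evalEval_eq_eval₂, eval_eq_aeval_pair, aeval_ofBiv]

theorem eval_eq_evalEval_toBiv (p : Fin 2 → K) (G : MvPolynomial (Fin 2) K) :
    eval p G = (toBiv G).evalEval (p 0) (p 1) := by
  rw [evalEval_eq_eval₂, eval_eq_aeval_pair, aeval_eq_eval₂_toBiv]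

theorem pderiv_ofBiv (q : K[X][X]) : pderiv 1 (ofBiv q) = ofBiv q.derivative := by
  induction q using Polynomial.induction_on' with
  | add a b ha hb => simp [ha, hb]
  | monomial i a =>
    have h0 : pderiv (1 : Fin 2) (Polynomial.aeval (X 0 : MvPolynomial (Fin 2) K) a) = 0 := by
      rw [Derivation.map_aeval, pderiv_X_of_ne (by decide), smul_zero]
    simp only [ofBiv, Polynomial.derivative_monomial, Polynomial.coe_eval₂RingHom,
      Polynomial.eval₂_monomial, AlgHom.toRingHom_eq_coe, RingHom.coe_coe, pderiv_mul,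
      pderiv_pow, pderiv_X_self, h0, map_mul, map_natCast]
    ring

theorem derivative_toBiv (G : MvPolynomial (Fin 2) K) :
    (toBiv G).derivative = toBiv (pderiv 1 G) := by
  induction G using MvPolynomial.induction_on with
  | C a => simp [toBiv, IsScalarTower.algebraMap_apply K K[X] K[X][X], Polynomial.algebraMap_eq]
  | add G H hG hH => simp [hG, hH]
  | mul_X G i hG =>
    rw [map_mul, Polynomial.derivative_mul, hG, pderiv_mul, map_add, map_mul, map_mul]
    fin_cases i <;> simp [toBiv]

/-! ### Existence of a model -/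

/-- An element integral over `K[x]` is regular wherever `x` is. -/
theorem ordGE_of_isIntegralElem {x y : F}
    (hy : (Polynomial.aeval (R := K) x).toRingHom.IsIntegralElem y) {v : Place K F}
    (hv : OrdGE v 0 x) : OrdGE v 0 y := by
  rw [← mem_iff_ordGE]
  have : IsIntegrallyClosed v.toValuationSubring := inferInstance
  let : Algebra K[X] F := (Polynomial.aeval (R := K) x).toRingHom.toAlgebra
  let : Algebra K[X] v.toValuationSubring :=
    (Polynomial.aeval (R := K)
      (⟨x, mem_iff_ordGE.2 hv⟩ : v.toValuationSubring)).toRingHom.toAlgebra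
  have hcoe : ∀ q : K[X], ((Polynomial.aeval (⟨x, mem_iff_ordGE.2 hv⟩ : v.toValuationSubring) q :
      v.toValuationSubring) : F) = Polynomial.aeval x q := fun q =>
    (Polynomial.aeval_algHom_apply (IsScalarTower.toAlgHom K v.toValuationSubring F) _ q).symm
  have : IsScalarTower K[X] v.toValuationSubring F :=
    IsScalarTower.of_algebraMap_eq fun q => (hcoe q).symm
  have hy' : IsIntegral K[X] y := hy
  obtain ⟨z, hz⟩ := IsIntegrallyClosed.isIntegral_iff.mp
    (hy'.tower_top (A := v.toValuationSubring))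
  exact hz ▸ z.2

/-- Over a field of characteristic zero every transcendental element of a function field of one
variable is the first coordinate of a plane model. -/
theorem exists_model [CharZero K] [IsFF K F] {x : F} (hx : Transcendental K x) :
    ∃ M : Model K F, M.x = x := by
  classical
  have := IsFF.finite_adjoin (F := F) hx
  have : CharZero K⟮x⟯ := charZero_of_injective_algebraMap (algebraMap K K⟮x⟯).injective
  have : CharZero F := charZero_of_injective_algebraMap (algebraMap K F).injective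
  obtain ⟨y₀, hy₀⟩ := Field.exists_primitive_element K⟮x⟯ F
  obtain ⟨D, P, hD, hP⟩ := exists_clear hx _ (coe_toAdjoin x) (minpoly K⟮x⟯ y₀)
  have hP0 : P ≠ 0 := fun h => hD (toAdjoin_injective hx (by
    simpa [h, minpoly.ne_zero (IsIntegral.of_finite K⟮x⟯ y₀)] using hP.symm))
  let : Algebra K[X] F := (Polynomial.aeval (R := K) x).toRingHom.toAlgebra
  have hinj : Function.Injective (algebraMap K[X] F) := transcendental_iff_injective.mp hx
  have : FaithfulSMul K[X] F := (faithfulSMul_iff_algebraMap_injective _ _).2 hinj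
  have : Module.IsTorsionFree K[X] F := inferInstance
  have halg : IsAlgebraic K[X] y₀ := ⟨P, hP0, (aeval_map_toAdjoin x y₀ P).symm.trans (by
    rw [hP, map_mul, minpoly.aeval, mul_zero])⟩
  obtain ⟨d, hd0, hd⟩ := halg.exists_integral_multiple
  set y := d • y₀ with hy
  set R₀ := minpoly K[X] y
  have hto : ∀ G : MvPolynomial (Fin 2) K, aeval ![x, y] G = Polynomial.aeval y (toBiv G) :=
    fun G => aeval_eq_eval₂_toBiv x y G
  have hof : ∀ q : K[X][X], aeval ![x, y] (ofBiv q) = Polynomial.aeval y q :=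
    fun q => aeval_ofBiv x y q
  refine ⟨⟨x, y, ofBiv R₀, hx, (hof _).trans (minpoly.aeval _ _), ?_,
    fun v hv => ordGE_of_isIntegralElem hd hv, ?_, ?_⟩, rfl⟩
  · rw [pderiv_ofBiv, hof]
    intro h0
    have hdeg : 0 < R₀.natDegree := minpoly.natDegree_pos hd
    have hne : R₀.derivative ≠ 0 := fun h => by
      have := Polynomial.derivative_eq_zero.1 h
      omega
    have := Polynomial.natDegree_derivative_lt hdeg.ne'
    have hle : R₀.natDegree ≤ _ :=
      Polynomial.natDegree_le_of_dvd (minpoly.isIntegrallyClosed_dvd hd h0) hne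
    omega
  · intro G hG p hp
    obtain ⟨c, hc⟩ := minpoly.isIntegrallyClosed_dvd hd ((hto G).symm.trans hG)
    rw [eval_eq_evalEval_toBiv, hc, Polynomial.evalEval_mul, ← eval_ofBiv, hp, zero_mul]
  · intro f
    have hytop : K⟮x⟯⟮y⟯ = ⊤ := by
      rw [eq_top_iff, ← hy₀, adjoin_simple_le_iff,
        ← inv_mul_cancel_left₀ (fun h => hd0 (hinj (h.trans (map_zero _).symm)) :
          algebraMap K[X] F d ≠ 0) y₀, ← Algebra.smul_def]
      exact mul_mem (inv_mem (coe_toAdjoin x d ▸ (K⟮x⟯⟮y⟯).algebraMap_mem (toAdjoin x d)))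
        (mem_adjoin_simple_self _ y)
    obtain ⟨A, e, he, hA⟩ := exists_gen hx hytop f
    exact ⟨ofBiv A, e, fun h => he (transcendental_iff.1 hx e h),
      hA.trans (hof A).symm⟩

namespace Model

variable (M : Model K F)

/-- `G (x, y)`. -/
def val : MvPolynomial (Fin 2) K →ₐ[K] F := aeval ![M.x, M.y]

theorem val_aeval (e : K[X]) : M.val (Polynomial.aeval (X 0) e) = Polynomial.aeval M.x e := by
  rw [← Polynomial.aeval_algHom_apply, val, aeval_X]; rfl

/-- `v` is centred at the point `p`. -/
def At (v : Place K F) (p : Fin 2 → K) : Prop :=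
  OrdGE v 1 (M.x - algebraMap K F (p 0)) ∧ OrdGE v 1 (M.y - algebraMap K F (p 1))

/-- `p` is a smooth point of the model. -/
def Smooth (p : Fin 2 → K) : Prop := eval p M.R = 0 ∧ eval p (pderiv 1 M.R) ≠ 0

variable {M} {v : Place K F} {p : Fin 2 → K}

theorem At.ordGE_x (h : M.At v p) : OrdGE v 0 M.x := by
  simpa using (h.1.mono zero_le_one).add (ordGE_algebraMap (p 0))

theorem At.ordGE_y (h : M.At v p) : OrdGE v 0 M.y := by
  simpa using (h.2.mono zero_le_one).add (ordGE_algebraMap (p 1))

theorem val_eq_fev (G : MvPolynomial (Fin 2) K) : M.val G = fev M.x M.y (toBiv G) :=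
  aeval_eq_eval₂_toBiv M.x M.y G

theorem eval_eq_bev (p : Fin 2 → K) (G : MvPolynomial (Fin 2) K) :
    eval p G = bev (p 0) (p 1) (toBiv G) := by
  rw [eval_eq_evalEval_toBiv, bev_eq_eval]

theorem Smooth.isSimplePt (hp : M.Smooth p) : IsSimplePt M.x M.y (toBiv M.R) (p 0) (p 1) where
  tr := M.tr
  gen f := by
    obtain ⟨G, e, he, hG⟩ := M.frac f
    exact ⟨toBiv G, e, fun h => he (by rw [h, map_zero]), hG.trans (val_eq_fev (M := M) G)⟩
  eqn := by rw [← val_eq_fev, val, M.aeval_R]
  root := by rw [← eval_eq_bev, hp.1]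
  simple := by rw [derivative_toBiv, ← eval_eq_bev]; exact hp.2

variable [IsAlgClosed K] [IsFF K F]

theorem At.isOverPt (h : M.At v p) : IsOverPt M.x M.y v (p 0) (p 1) :=
  ⟨h.ordGE_x, h.ordGE_y, (pval_eq_iff h.ordGE_x).2 h.1, (pval_eq_iff h.ordGE_y).2 h.2⟩

theorem At.ordGE_sub (h : M.At v p) (G : MvPolynomial (Fin 2) K) :
    OrdGE v 1 (M.val G - algebraMap K F (eval p G)) := by
  rw [val_eq_fev, eval_eq_bev, ← h.isOverPt.pval_fev]
  exact pval_spec (h.isOverPt.ordGE _)

theorem At.eval_eq_zero (h : M.At v p) {G : MvPolynomial (Fin 2) K} (hG : OrdGE v 1 (M.val G)) :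
    eval p G = 0 := by
  by_contra hne
  have h1 := hG.sub (h.ordGE_sub G)
  rw [sub_sub_cancel, ordGE_iff_le ((_root_.map_ne_zero _).2 hne), ord_algebraMap hne] at h1
  omega

theorem At.ordGE_one (h : M.At v p) {G : MvPolynomial (Fin 2) K} (hG : eval p G = 0) :
    OrdGE v 1 (M.val G) := by
  simpa [hG] using h.ordGE_sub G

theorem At.ne_zero_ord (h : M.At v p) {G : MvPolynomial (Fin 2) K} (hG : eval p G ≠ 0) :
    M.val G ≠ 0 ∧ v.ord (M.val G) = 0 := by
  rw [val_eq_fev]
  exact h.isOverPt.ord_eq_zero (eval_eq_bev (K := K) p G ▸ hG)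

theorem At.eval_R (h : M.At v p) : eval p M.R = 0 :=
  h.eval_eq_zero (by rw [val, M.aeval_R]; exact Or.inl rfl)

omit [IsAlgClosed K] [IsFF K F] in
theorem exists_split (hp : M.Smooth p) (G : MvPolynomial (Fin 2) K) (hG : eval p G = 0) :
    ∃ W G' : MvPolynomial (Fin 2) K, eval p W = eval p (pderiv 1 M.R) ∧
      eval p G' = eval p (tang M.R G) ∧
      M.val W * M.val G = (M.x - algebraMap K F (p 0)) * M.val G' := by
  obtain ⟨G₁, G₂, h1⟩ := exists_decomp G p
  obtain ⟨W₂, W, h2⟩ := exists_decomp M.R p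
  obtain ⟨a1, a2⟩ := eval_pderiv_of_decomp h1
  obtain ⟨b1, b2⟩ := eval_pderiv_of_decomp h2
  refine ⟨W, W * G₁ - W₂ * G₂, b2.symm, ?_, ?_⟩
  · simp only [tang, map_sub, map_mul, a1, a2, b1, b2]
    ring
  · rw [hG, map_zero, zero_add] at h1
    rw [hp.1, map_zero, zero_add] at h2
    have h3 : W * G = (X 0 - C (p 0)) * (W * G₁ - W₂ * G₂) + G₂ * M.R := by
      conv_lhs => rw [h1]
      linear_combination (norm := ring_nf) (-G₂) * h2
    have h4 := congrArg M.val h3
    simp only [map_add, map_mul, map_sub, val, aeval_C, aeval_X, Matrix.cons_val_zero,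
      M.aeval_R, mul_zero, add_zero] at h4 ⊢
    exact h4

variable (hp : M.Smooth p)
include hp

theorem At.ordGE_two (h : M.At v p) {G : MvPolynomial (Fin 2) K} (hG : eval p G = 0)
    (hD : eval p (tang M.R G) = 0) : OrdGE v 2 (M.val G) := by
  obtain ⟨W, G', hW, hG', he⟩ := exists_split hp G hG
  obtain ⟨hW0, hWo⟩ := h.ne_zero_ord (G := W) (hW ▸ hp.2)
  have h2 : OrdGE v 2 (M.val W * M.val G) := he ▸ h.1.mul (h.ordGE_one (hG'.trans hD))
  rcases eq_or_ne (M.val G) 0 with h0 | h0
  · exact Or.inl h0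
  rw [ordGE_iff_le (mul_ne_zero hW0 h0), v.ord_mul hW0 h0, hWo, zero_add] at h2
  exact Or.inr h2

theorem At.ord_eq_one (h : M.At v p) : v.ord (M.x - algebraMap K F (p 0)) = 1 :=
  hp.isSimplePt.ord_sub_eq_one h.isOverPt

theorem At.eq {w : Place K F} (h : M.At v p) (h' : M.At w p) : v = w :=
  hp.isSimplePt.over_unique h.isOverPt h'.isOverPt

/-- A smooth point of a plane model lies under a place of the function field. -/
theorem exists_at : ∃ v : Place K F, M.At v p := by
  obtain ⟨w, hw⟩ := exists_overPt (u := M.x) (z := M.y) (t := p 0) (η := p 1) M.tr fun G hG => by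
    rw [bev_eq_eval, ← M.kills (ofBiv G) ((aeval_ofBiv M.x M.y G).trans hG) p hp.1, eval_ofBiv]
  exact ⟨w, (pval_eq_iff hw.reg_u).1 hw.val_u, (pval_eq_iff hw.reg_z).1 hw.val_z⟩

end Model

end FermatAgent.MW.Halve
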