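import Mathlib.RingTheory.Polynomial.Content
import Mathlib.FieldTheory.Separable
import Fermat.Agent.Curve.Expansion
import Fermat.Agent.Curve.Jac.Generic
import Fermat.Agent.MW.Halve.Model

/-!
# A frame for halving near a place

For a place `P0` with uniformizer `x` a frame consists of a function `h`, a polynomial in `x` with
simple zeros at the smooth points `Z`, and functions separating these points and `P0` inside
`L (2 B + P0)`, where `B` is the divisor of poles of `h`.
-/

set_option autoImplicit false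

noncomputable section

open AlgebraicCurve Module IntermediateField

namespace FermatAgent.MW.Halve

open FermatAgent.Curve MvPolynomial

theorem eval_aeval_X {K σ : Type*} [CommRing K] (p : σ → K) (i : σ) (e : Polynomial K) :
    eval p (Polynomial.aeval (X i : MvPolynomial σ K) e) = e.eval (p i) := by
  induction e using Polynomial.induction_on' with
  | add a b ha hb => rw [map_add, map_add, Polynomial.eval_add, ha, hb]
  | monomial j c => simp [Polynomial.aeval_monomial, MvPolynomial.algebraMap_eq]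

variable {K F : Type*} [Field K] [Field F] [Algebra K F]

/-- The point of `v` in the plane. -/
def IsPoint (M : Model K F) (p : Place K F → Fin 2 → K) (v : Place K F) : Prop :=
  M.At v (p v) ∧ M.Smooth (p v)

/-- Data for halving near `P0`. -/
structure Frame (P0 : Place K F) where
  /-- the plane model, with `x` a uniformizer at `P0` -/
  M : Model K F
  /-- the set of places to separate -/
  Z : Finset (Place K F)
  /-- the plane points of the places -/
  p : Place K F → Fin 2 → K
  /-- the polynomial giving `h` in terms of `x` -/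
  hx : Polynomial K
  /-- the common denominator in `x` -/
  den : Polynomial K
  /-- the divisor of poles of `h` -/
  B : Divisor K F
  /-- a function with a simple pole at `P0` -/
  g0 : F
  /-- the functions separating the places of `Z` -/
  g : Place K F → F
  /-- the numerator of `g0` -/
  G0 : MvPolynomial (Fin 2) K
  /-- the numerators of the `g` -/
  G : Place K F → MvPolynomial (Fin 2) K
  ord_x : P0.ord M.x = 1
  point : ∀ v ∈ Z, IsPoint M p v
  p0_ne : ∀ v ∈ Z, p v 0 ≠ 0
  den_ne : ∀ v ∈ Z, den.eval (p v 0) ≠ 0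
  hx_eval : ∀ v ∈ Z, hx.eval (p v 0) = 0
  hx_deriv : ∀ v ∈ Z, hx.derivative.eval (p v 0) ≠ 0
  hx_zero : hx.eval 0 ≠ 0
  B_eq : ∀ v, OrdGE v 0 M.x → B v = 0
  degree_B : Divisor.degree B = Z.card
  h_mem : Polynomial.aeval M.x (hx ^ 2) ∈ riemannRochSpace (2 • B + Finsupp.single P0 1)
  g0_mem : g0 ∈ riemannRochSpace (2 • B + Finsupp.single P0 1)
  g_mem : ∀ v ∈ Z, g v ∈ riemannRochSpace (2 • B + Finsupp.single P0 1)
  g0_ord : g0 ≠ 0 ∧ P0.ord g0 = -1
  g_reg : ∀ v ∈ Z, OrdGE P0 0 (g v)
  G0_eq : g0 * Polynomial.aeval M.x den = M.val G0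
  G_eq : ∀ v ∈ Z, g v * Polynomial.aeval M.x den = M.val (G v)
  G0_eval : ∀ w ∈ Z, eval (p w) G0 = 0
  G_eval_ne : ∀ v ∈ Z, eval (p v) (G v) ≠ 0
  G_eval : ∀ v ∈ Z, ∀ w ∈ Z, v ≠ w → eval (p w) (G v) = 0

variable [IsFF K F]

theorem finite_denominators (M : Model K F) (D : Divisor K F) :
    ∃ e : Polynomial K, e ≠ 0 ∧ ∀ f ∈ riemannRochSpace D, ∃ G : MvPolynomial (Fin 2) K,
      f * Polynomial.aeval M.x e = M.val G := by
  classical
  set b := Module.finBasis K (riemannRochSpace D)
  choose G e he hG using fun i => M.frac ((b i : F))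
  refine ⟨∏ i, e i, Finset.prod_ne_zero_iff.2 fun i _ h => he i (by rw [h, map_zero]),
    fun f hf => ?_⟩
  refine ⟨∑ i, C (b.repr ⟨f, hf⟩ i) *
    (G i * Polynomial.aeval (X 0) (∏ j ∈ Finset.univ.erase i, e j)), ?_⟩
  have h1 : f = ∑ i, algebraMap K F (b.repr ⟨f, hf⟩ i) * (b i : F) := by
    have h := congrArg Subtype.val (b.sum_repr ⟨f, hf⟩)
    rw [AddSubmonoidClass.coe_finsetSum] at h
    simpa only [SetLike.val_smul, Algebra.smul_def] using h.symm
  conv_lhs => arg 1; rw [h1]
  rw [Finset.sum_mul, map_sum]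
  refine Finset.sum_congr rfl fun i _ => ?_
  rw [map_mul, map_mul, M.val_aeval, show M.val (C (b.repr ⟨f, hf⟩ i)) = _ from aeval_C _ _,
    show M.val (G i) = _ from (hG i).symm, ← Finset.mul_prod_erase _ _ (Finset.mem_univ i), map_mul]
  ring

theorem exists_ord_eq_of_threshold [IsAlgClosed K] {c : ℤ}
    (hc : ∀ D : Divisor K F, c ≤ Divisor.degree D →
      (rrDim D : ℤ) = Divisor.degree D + 1 - rGenus K F)
    (D : Divisor K F) (v : Place K F) (hD : c ≤ Divisor.degree D) :
    ∃ g : F, g ≠ 0 ∧ g ∈ riemannRochSpace (D + Finsupp.single v 1) ∧ v.ord g = -D v - 1 := by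
  obtain ⟨g, hg, hg0, h⟩ := Jac.exists_exact hc (D := D + Finsupp.single v 1) (by
    rw [map_add, Divisor.degree_single, deg_eq_one v]; push_cast; omega) fun _ : Unit => v
  exact ⟨g, hg0, hg, by rw [h (), Finsupp.add_apply, Finsupp.single_eq_same]; ring⟩

variable [IsAlgClosed K] [CharZero K]

omit [CharZero K] in
/-- Enough abscissae off the zeros of a polynomial and off the branch places. -/
private theorem exists_good_abscissae (M : Model K F) {den : Polynomial K} (hden0 : den ≠ 0)
    (n : ℕ) : ∃ A : Finset K, A.card = n ∧ ∀ a ∈ A, den.eval a ≠ 0 ∧ a ≠ 0 ∧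
      ∀ v : Place K F, OrdGE v 1 (M.x - algebraMap K F a) → v.ord (M.val (pderiv 1 M.R)) = 0 := by
  set badA : Set K := {a | den.eval a = 0} ∪ {0} ∪
    ⋃ v ∈ {v : Place K F | v.ord (M.val (pderiv 1 M.R)) ≠ 0},
      {a | OrdGE v 1 (M.x - algebraMap K F a)}
  have hbad : badA.Finite := by
    refine ((Polynomial.finite_setOfPred_isRoot hden0).union (Set.finite_singleton 0)).union
      ((finite_ord_ne_zero (M.val (pderiv 1 M.R))).biUnion
        fun v _ => Set.Subsingleton.finite fun a ha b hb => ?_)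
    by_contra hab
    have h1 := OrdGE.sub (hb : OrdGE v 1 _) (ha : OrdGE v 1 _)
    rw [sub_sub_sub_cancel_left, ← map_sub, ordGE_iff_le ((_root_.map_ne_zero _).2
      (sub_ne_zero.2 hab)), ord_algebraMap (sub_ne_zero.2 hab)] at h1
    omega
  obtain ⟨A, hA, hAcard⟩ := hbad.infinite_compl.exists_subset_card_eq n
  refine ⟨A, hAcard, fun a ha => ?_⟩
  have h1 := hA (Finset.mem_coe.2 ha)
  simp only [badA, Set.mem_compl_iff, Set.mem_union, Set.mem_ofPred_eq, Set.mem_singleton_iff,
    Set.mem_iUnion, not_or, not_exists] at h1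
  exact ⟨h1.1.1, h1.1.2, fun v hv => by
    by_contra h
    exact h1.2 v h hv⟩

omit [IsFF K F] [IsAlgClosed K] [CharZero K] in
/-- The function `x` is not a constant. -/
private theorem sub_algebraMap_ne_zero (M : Model K F) (a : K) : M.x - algebraMap K F a ≠ 0 :=
  fun h0 => M.tr (by rw [sub_eq_zero.1 h0]; exact isAlgebraic_algebraMap _)

omit [IsFF K F] [IsAlgClosed K] [CharZero K] in
/-- A split polynomial in `x` has a pole of its degree times that of `x`. -/
private theorem ord_prod_of_pole (M : Model K F) (A : Finset K) {v : Place K F}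
    (hv : v.ord M.x < 0) :
    v.ord (∏ a ∈ A, (M.x - algebraMap K F a)) = A.card * v.ord M.x := by
  have hx0 : M.x ≠ 0 := fun h0 => by rw [h0, Place.ord_zero] at hv; omega
  rw [ord_prod _ _ fun a _ => sub_algebraMap_ne_zero M a,
    Finset.sum_congr rfl fun a _ => show v.ord (M.x - algebraMap K F a) = v.ord M.x by
      rw [sub_eq_add_neg]
      exact (ord_add_eq_of_ordGE hx0 ((ordGE_algebraMap a).neg.mono (by omega))).2,
    Finset.sum_const, nsmul_eq_mul]

omit [CharZero K] in
/-- Over a good abscissa the split polynomial has only simple zeros, at smooth points. -/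
private theorem exists_point_of_ord_pos (M : Model K F) (A : Finset K)
    (hA : ∀ a ∈ A, ∀ v : Place K F, OrdGE v 1 (M.x - algebraMap K F a) →
      v.ord (M.val (pderiv 1 M.R)) = 0)
    {v : Place K F} (hv : 0 < v.ord (∏ a ∈ A, (M.x - algebraMap K F a))) :
    ∃ q : Fin 2 → K, q 0 ∈ A ∧ M.At v q ∧ M.Smooth q ∧
      v.ord (∏ a ∈ A, (M.x - algebraMap K F a)) = 1 := by
  classical
  have hxreg : OrdGE v 0 M.x := by
    refine Or.inr (not_lt.1 fun hlt => ?_)
    rw [ord_prod_of_pole M A hlt] at hv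
    have : (0 : ℤ) ≤ A.card := Int.natCast_nonneg _
    nlinarith
  obtain ⟨a, ha, hpos⟩ : ∃ a ∈ A, 0 < v.ord (M.x - algebraMap K F a) := by
    by_contra hnon
    push Not at hnon
    have := Finset.sum_nonpos hnon
    rw [← ord_prod _ _ fun a _ => sub_algebraMap_ne_zero M a] at this
    omega
  obtain ⟨b, hb⟩ := exists_sub_algebraMap v (M.int v hxreg)
  have hat : M.At v ![a, b] := ⟨Or.inr (by simp only [Matrix.cons_val_zero]; omega),
    by simpa using hb⟩
  have hsm : M.Smooth ![a, b] := by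
    refine ⟨hat.eval_R, fun h0 => ?_⟩
    have h1 := hat.ordGE_one h0
    rw [ordGE_iff_le (show M.val _ ≠ 0 from M.sep)] at h1
    have h2 := hA a ha v (Or.inr (by omega))
    omega
  refine ⟨![a, b], ha, hat, hsm, ?_⟩
  have hne : ∀ c ∈ A.erase a, v.ord (M.x - algebraMap K F c) = 0 := fun c hc => by
    have hca := sub_ne_zero.2 (Finset.ne_of_mem_erase hc).symm
    rw [show M.x - algebraMap K F c = algebraMap K F (a - c) + (M.x - algebraMap K F a) by
        rw [map_sub]; ring,
      (ord_add_eq_of_ordGE ((_root_.map_ne_zero _).2 hca)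
        (OrdGE.mono (show OrdGE v 1 (M.x - algebraMap K F a) from Or.inr (by omega))
          (by rw [ord_algebraMap hca]; omega))).2, ord_algebraMap hca]
  rw [ord_prod _ _ fun a _ => sub_algebraMap_ne_zero M a, ← Finset.add_sum_erase _ _ ha,
    Finset.sum_eq_zero hne, add_zero]
  simpa using hat.ord_eq_one hsm

omit [IsAlgClosed K] [CharZero K] in
/-- The zeros of the split polynomial are its divisor plus its multiple of the poles of `x`. -/
private theorem divisorOf_prod_add (M : Model K F) (A : Finset K) {Z : Finset (Place K F)}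
    (hZ : ∀ v, v ∈ Z ↔ 0 < v.ord (∏ a ∈ A, (M.x - algebraMap K F a)))
    (h1 : ∀ v ∈ Z, v.ord (∏ a ∈ A, (M.x - algebraMap K F a)) = 1) :
    divisorOf (∏ a ∈ A, (M.x - algebraMap K F a)) + (A.card : ℤ) • poleDivisor M.x =
      ∑ v ∈ Z, Finsupp.single v (1 : ℤ) := by
  classical
  refine Finsupp.ext fun v => ?_
  rw [Finsupp.add_apply, Finsupp.finsetSum_apply, divisorOf_apply, Finsupp.smul_apply,
    poleDivisor_apply, smul_eq_mul]
  simp only [Finsupp.single_apply, Finset.sum_ite_eq']
  rcases lt_or_ge (v.ord M.x) 0 with hlt | hge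
  · have hvZ : v ∉ Z := fun hv => by
      have := h1 v hv
      rw [ord_prod_of_pole M A hlt] at this
      have : (0 : ℤ) ≤ A.card := Int.natCast_nonneg _
      nlinarith
    rw [if_neg hvZ, ord_prod_of_pole M A hlt, max_eq_left (by omega)]
    ring
  · rw [max_eq_right (by omega), mul_zero, add_zero]
    split_ifs with hv
    · exact h1 v hv
    · rw [hZ] at hv
      have : OrdGE v 0 (∏ a ∈ A, (M.x - algebraMap K F a)) :=
        Finset.prod_induction _ (OrdGE v 0) (fun a b ha hb => by simpa using ha.mul hb)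
          (Or.inr (by simp)) fun a _ => OrdGE.sub (Or.inr hge) (ordGE_algebraMap a)
      rw [ordGE_iff_le (Finset.prod_ne_zero_iff.2 fun a _ => sub_algebraMap_ne_zero M a)] at this
      omega

omit [CharZero K] in
/-- Functions separating a set of zeros and `P0`, cleared of denominators. -/
private theorem exists_separating {c : ℤ} (hc : ∀ D : Divisor K F, c ≤ Divisor.degree D →
      (rrDim D : ℤ) = Divisor.degree D + 1 - rGenus K F)
    {P0 : Place K F} {M : Model K F} {Z : Finset (Place K F)} {p : Place K F → Fin 2 → K}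
    {den : Polynomial K} {B : Divisor K F} (hP0B : B P0 = 0) (hP0Z : P0 ∉ Z)
    (hZB : ∀ v ∈ Z, B v = 0) (hdegB : Divisor.degree B = Z.card) (hcZ : c ≤ (Z.card : ℤ))
    (hAt : ∀ v ∈ Z, M.At v (p v)) (hdenp : ∀ v ∈ Z, den.eval (p v 0) ≠ 0)
    (hden : ∀ f ∈ riemannRochSpace (2 • B + Finsupp.single P0 1),
      ∃ G : MvPolynomial (Fin 2) K, f * Polynomial.aeval M.x den = M.val G) :
    ∃ (g0 : F) (g : Place K F → F) (G0 : MvPolynomial (Fin 2) K)
      (G : Place K F → MvPolynomial (Fin 2) K),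
      g0 ∈ riemannRochSpace (2 • B + Finsupp.single P0 1) ∧
      (∀ v ∈ Z, g v ∈ riemannRochSpace (2 • B + Finsupp.single P0 1)) ∧
      (g0 ≠ 0 ∧ P0.ord g0 = -1) ∧ (∀ v ∈ Z, OrdGE P0 0 (g v)) ∧
      g0 * Polynomial.aeval M.x den = M.val G0 ∧
      (∀ v ∈ Z, g v * Polynomial.aeval M.x den = M.val (G v)) ∧
      (∀ w ∈ Z, eval (p w) G0 = 0) ∧ (∀ v ∈ Z, eval (p v) (G v) ≠ 0) ∧
      ∀ v ∈ Z, ∀ w ∈ Z, v ≠ w → eval (p w) (G v) = 0 := by
  classical
  set Zd : Divisor K F := ∑ v ∈ Z, Finsupp.single v (1 : ℤ) with hZd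
  have hZd_apply : ∀ v, Zd v = if v ∈ Z then 1 else 0 := fun v => by
    rw [hZd, Finsupp.finsetSum_apply]
    simp [Finsupp.single_apply]
  set D : Divisor K F := 2 • B - Zd
  have hdegD : Divisor.degree D = Z.card := by
    rw [map_sub, map_nsmul, hdegB, hZd, map_sum]
    simp [Divisor.degree_single, deg_eq_one]
    ring
  have hDZ : ∀ v ∈ Z, D v = -1 := fun v hv => by
    simp only [D, Finsupp.sub_apply, Finsupp.smul_apply, hZB v hv, hZd_apply, if_pos hv,
      smul_zero, zero_sub]
  have hDP0 : D P0 = 0 := by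
    simp only [D, Finsupp.sub_apply, Finsupp.smul_apply, hP0B, hZd_apply, if_neg hP0Z,
      smul_zero, sub_zero]
  have hDle : ∀ v, D v ≤ (2 • B) v := fun v => by
    simp only [D, Finsupp.sub_apply, hZd_apply]
    split_ifs <;> omega
  obtain ⟨g0, hg0, hg0m, hg0o⟩ := exists_ord_eq_of_threshold hc D P0 (by omega)
  have hgex : ∀ v ∈ Z, ∃ g : F, g ≠ 0 ∧ g ∈ riemannRochSpace (D + Finsupp.single v 1) ∧
      v.ord g = -D v - 1 := fun v _ => exists_ord_eq_of_threshold hc D v (by omega)
  choose! g hgne hgm hgo using hgex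
  have hg0mem : g0 ∈ riemannRochSpace (2 • B + Finsupp.single P0 1) := by
    refine riemannRochSpace_le_of_le (fun v => ?_) hg0m
    have := hDle v
    simp only [Finsupp.add_apply]
    omega
  have hgmem : ∀ v ∈ Z, g v ∈ riemannRochSpace (2 • B + Finsupp.single P0 1) := fun v hv => by
    refine riemannRochSpace_le_of_le (fun w => ?_) (hgm v hv)
    simp only [D, Finsupp.add_apply, Finsupp.sub_apply, hZd_apply, Finsupp.single_apply]
    split_ifs with h1 h2 h3 <;> first | omega | (subst_vars; exact absurd hv ‹_›)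
  obtain ⟨G0, hG0⟩ := hden g0 hg0mem
  have hGex : ∀ v ∈ Z, ∃ G : MvPolynomial (Fin 2) K, g v * Polynomial.aeval M.x den = M.val G :=
    fun v hv => hden _ (hgmem v hv)
  choose! G hG using hGex
  have hdenat : ∀ v ∈ Z, Polynomial.aeval M.x den ≠ 0 ∧ v.ord (Polynomial.aeval M.x den) = 0 := by
    intro v hv
    rw [← M.val_aeval]
    refine (hAt v hv).ne_zero_ord ?_
    rw [eval_aeval_X]
    exact hdenp v hv
  have hmem_ord : ∀ (v : Place K F), v ∈ Z → ∀ f : F, OrdGE v 1 f → ∀ G' : MvPolynomial (Fin 2) K,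
      f * Polynomial.aeval M.x den = M.val G' → eval (p v) G' = 0 := fun v hv f hf G' hG' => by
    refine (hAt v hv).eval_eq_zero ?_
    rw [← hG']
    exact (hf.mul (Or.inr (hdenat v hv).2.ge : OrdGE v 0 _)).mono (by omega)
  refine ⟨g0, g, G0, G, hg0mem, hgmem, ⟨hg0, by omega⟩, ?_, hG0, hG, ?_, ?_, ?_⟩
  · intro v hv
    rw [ordGE_iff_le (hgne v hv)]
    have h1 := (mem_riemannRochSpace_iff_ne_zero (hgne v hv)).1 (hgm v hv) P0
    rw [Finsupp.add_apply, hDP0, Finsupp.single_eq_of_ne (show P0 ≠ v from fun e => hP0Z (e ▸ hv))]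
      at h1
    omega
  · intro w hw
    refine hmem_ord w hw g0 ?_ G0 hG0
    have h1 := (mem_riemannRochSpace_iff_ne_zero hg0).1 hg0m w
    rw [Finsupp.add_apply, hDZ w hw,
      Finsupp.single_eq_of_ne (show w ≠ P0 from fun e => hP0Z (e ▸ hw))]
      at h1
    exact Or.inr (by omega)
  · intro v hv h0
    have h1 := (hAt v hv).ordGE_one h0
    rw [← hG v hv, ordGE_iff_le (mul_ne_zero (hgne v hv) (hdenat v hv).1),
      v.ord_mul (hgne v hv) (hdenat v hv).1, hgo v hv, (hdenat v hv).2, hDZ v hv] at h1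
    omega
  · intro v hv w hw hvw
    refine hmem_ord w hw (g v) ?_ _ (hG v hv)
    have h1 := (mem_riemannRochSpace_iff_ne_zero (hgne v hv)).1 (hgm v hv) w
    rw [Finsupp.add_apply, hDZ w hw, Finsupp.single_eq_of_ne (Ne.symm hvw)] at h1
    exact Or.inr (by omega)

/-- Every place has a frame. -/
theorem exists_frame (P0 : Place K F) : Nonempty (Frame P0) := by
  classical
  obtain ⟨x, hx0, hx1⟩ := exists_ord_eq_one P0
  obtain ⟨M, rfl⟩ := exists_model (K := K) (F := F) (x := x)
    (transcendental_of_ord_ne_zero (v := P0) (by omega))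
  obtain ⟨c, hc⟩ := exists_rrDim_eq (K := K) (F := F)
  set k : ℕ := c.toNat + 1
  set B : Divisor K F := (k : ℤ) • poleDivisor M.x with hBdef
  have hBreg : ∀ v : Place K F, OrdGE v 0 M.x → B v = 0 := fun v hv => by
    rw [ordGE_iff_le hx0] at hv
    rw [hBdef, Finsupp.smul_apply, poleDivisor_apply, max_eq_right (by omega), smul_zero]
  obtain ⟨den, hden0, hden⟩ := finite_denominators M (2 • B + Finsupp.single P0 1)
  obtain ⟨A, hAcard, hAgood⟩ := exists_good_abscissae M hden0 k
  set hx : Polynomial K := ∏ a ∈ A, (Polynomial.X - Polynomial.C a) with hxdef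
  have hsep : hx.Separable := Polynomial.separable_prod_X_sub_C_iff'.2 fun a _ b _ h => h
  have hxev : ∀ a ∈ A, hx.eval a = 0 ∧ hx.derivative.eval a ≠ 0 := fun a ha => by
    have h0 : hx.eval a = 0 := by
      rw [hxdef, Polynomial.eval_prod]
      exact Finset.prod_eq_zero ha (by simp)
    refine ⟨h0, ?_⟩
    have h1 := hsep.eval₂_derivative_ne_zero (RingHom.id K) (x := a) h0
    simpa using h1
  set h := ∏ a ∈ A, (M.x - algebraMap K F a)
  have hh : Polynomial.aeval M.x hx = h := by simp [hxdef, h, map_prod]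
  have hh0 : h ≠ 0 := Finset.prod_ne_zero_iff.2 fun a _ => sub_algebraMap_ne_zero M a
  set Z : Finset (Place K F) := (finite_ord_pos (K := K) h).toFinset
  have hZ : ∀ v, v ∈ Z ↔ 0 < v.ord h := fun v => by simp [Z]
  have hdata : ∀ v ∈ Z, ∃ q : Fin 2 → K, q 0 ∈ A ∧ M.At v q ∧ M.Smooth q ∧ v.ord h = 1 :=
    fun v hv => exists_point_of_ord_pos M A (fun a ha => (hAgood a ha).2.2) ((hZ v).1 hv)
  choose! p hpA hAt hSm hord using hdata
  have hdivh : divisorOf h + B = ∑ v ∈ Z, Finsupp.single v (1 : ℤ) := by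
    rw [hBdef, ← hAcard]
    exact divisorOf_prod_add M A hZ hord
  have hdegB : Divisor.degree B = Z.card := by
    have h1 := congrArg Divisor.degree hdivh
    rw [map_add, degree_divisorOf, zero_add, map_sum] at h1
    rw [h1]
    simp [Divisor.degree_single, deg_eq_one]
  have hcZ : c ≤ (Z.card : ℤ) := by
    rw [← hdegB, hBdef, map_zsmul, degree_poleDivisor M.tr, smul_eq_mul]
    have := IsFF.finite_adjoin (F := F) M.tr
    have h1 : (1 : ℤ) ≤ finrank K⟮M.x⟯ F := by exact_mod_cast (finrank_pos : 0 < _)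
    have h2 : c ≤ (k : ℤ) := by omega
    nlinarith [Int.natCast_nonneg k]
  have hp0 : ∀ v ∈ Z, p v 0 ≠ 0 := fun v hv => (hAgood _ (hpA v hv)).2.1
  have hP0Z : P0 ∉ Z := fun hP => hp0 P0 hP (by
    by_contra h0
    have h1 := OrdGE.sub (Or.inr (by omega) : OrdGE P0 1 M.x) (hAt P0 hP).1
    rw [sub_sub_cancel, ordGE_iff_le ((_root_.map_ne_zero _).2 h0), ord_algebraMap h0] at h1
    omega)
  obtain ⟨g0, g, G0, G, hg0m, hgm, hg0, hgreg, hG0, hG, hG0e, hGne, hGe⟩ :=
    exists_separating hc (hBreg P0 (Or.inr (by omega))) hP0Z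
      (fun v hv => hBreg v (hAt v hv).ordGE_x) hdegB hcZ hAt
      (fun v hv => (hAgood _ (hpA v hv)).1) hden
  refine ⟨⟨M, Z, p, hx, den, B, g0, g, G0, G, hx1, fun v hv => ⟨hAt v hv, hSm v hv⟩, hp0,
    fun v hv => (hAgood _ (hpA v hv)).1, fun v hv => (hxev _ (hpA v hv)).1,
    fun v hv => (hxev _ (hpA v hv)).2, ?_, hBreg, hdegB, ?_, hg0m, hgm, hg0, hgreg,
    hG0, hG, hG0e, hGne, hGe⟩⟩
  · rw [hxdef, Polynomial.eval_prod, Finset.prod_ne_zero_iff]
    exact fun a ha => by simpa using (hAgood a ha).2.1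
  · rw [map_pow, hh, mem_riemannRochSpace_iff_ne_zero (pow_ne_zero _ hh0)]
    intro v
    rw [ord_pow]
    have h1 := DFunLike.congr_fun hdivh v
    simp only [Finsupp.add_apply, divisorOf_apply, Finsupp.finsetSum_apply, Finsupp.single_apply,
      Finset.sum_ite_eq'] at h1
    simp only [Finsupp.add_apply, Finsupp.single_apply, two_nsmul]
    split_ifs at h1 ⊢ <;> omega

end FermatAgent.MW.Halve
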