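import Mathlib.Algebra.MvPolynomial.Eval
import Mathlib.FieldTheory.IsAlgClosed.Basic
import Fermat.Agent.Curve.Expansion

/-!
# Valuations of an algebraic extension over a place, and specialisation of finitely many elements

`HasVal o z a` says that `z` takes the value `a` at a valuation over the place; finitely many
elements of an algebraic extension take values in the constants at almost all places.
-/

set_option autoImplicit false

noncomputable section

open AlgebraicCurve

namespace FermatAgent.MW.Halve

open FermatAgent.Curve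

variable {K F Ω : Type*} [Field K] [Field F] [Algebra K F] [Field Ω] [Algebra F Ω]

/-- A valuation ring of `Ω` over the place `v`. -/
structure Over (v : Place K F) (Ω : Type*) [Field Ω] [Algebra F Ω] where
  /-- the valuation ring -/
  V : ValuationSubring Ω
  mem : ∀ f ∈ v.toValuationSubring, algebraMap F Ω f ∈ V
  nonunit : ∀ f, OrdGE v 1 f → algebraMap F Ω f ∈ V.nonunits

theorem nonempty_over (v : Place K F) : Nonempty (Over v Ω) := by
  let i : v.toValuationSubring →+* Ω := (algebraMap F Ω).comp v.toValuationSubring.subtype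
  let I : Ideal i.range := (IsLocalRing.maximalIdeal v.toValuationSubring).map i.rangeRestrict
  have hinj : Function.Injective i := (algebraMap F Ω).injective.comp Subtype.val_injective
  have hI : I ≠ ⊤ := by
    intro htop
    obtain ⟨a, ha, ha1⟩ := (Ideal.mem_map_iff_of_surjective i.rangeRestrict
      i.rangeRestrict_surjective).mp ((Ideal.eq_top_iff_one _).mp htop)
    have : a = 1 := hinj ((congrArg Subtype.val ha1).trans (map_one i).symm)
    exact (Ideal.ne_top_iff_one _).1 (IsLocalRing.maximalIdeal.isMaximal _).ne_top (this ▸ ha)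
  obtain ⟨V, hV, hVI⟩ := Ideal.image_subset_nonunits_valuationSubring I hI
  refine ⟨⟨V, fun f hf => hV ⟨⟨f, hf⟩, rfl⟩, fun f hf => ?_⟩⟩
  refine hVI ⟨i.rangeRestrict ⟨f, hf.mem zero_le_one⟩, Ideal.mem_map_of_mem _ ?_, rfl⟩
  exact (IsLocalRing.mem_maximalIdeal _).2 (mem_nonunits_iff.2
    ((ordGE_one_iff_of_mem (v := v) ⟨f, hf.mem zero_le_one⟩).1 hf))

namespace Over

variable {v : Place K F} (o : Over v Ω)

/-- The constants in the valuation ring. -/
def cst : K →+* o.V :=
  ((algebraMap F Ω).comp (algebraMap K F)).codRestrict o.V.toSubring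
    fun a => o.mem _ (v.algebraMap_mem' a)

/-- The constants in the residue field. -/
def cres : K →+* IsLocalRing.ResidueField o.V := (IsLocalRing.residue _).comp o.cst

/-- Regular functions in the valuation ring. -/
def reg : v.toValuationSubring →+* o.V :=
  ((algebraMap F Ω).comp v.toValuationSubring.subtype).codRestrict o.V.toSubring
    fun f => o.mem f f.2

theorem coe_reg (f : v.toValuationSubring) : (o.reg f : Ω) = algebraMap F Ω (f : F) := rfl

theorem residue_of_nonunit (a : o.V) (h : (a : Ω) ∈ o.V.nonunits) :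
    IsLocalRing.residue o.V a = 0 := by
  obtain ⟨ha, hm⟩ := ValuationSubring.mem_nonunits_iff_exists_mem_maximalIdeal.1 h
  exact (IsLocalRing.residue_eq_zero_iff _).2 hm

theorem residue_reg {f : v.toValuationSubring} {a : K}
    (h : OrdGE v 1 ((f : F) - algebraMap K F a)) :
    IsLocalRing.residue o.V (o.reg f) = o.cres a := by
  rw [← sub_eq_zero]
  show _ - IsLocalRing.residue o.V (o.cst a) = 0
  rw [← map_sub]
  refine o.residue_of_nonunit _ ?_
  have := o.nonunit _ h
  rw [map_sub] at this
  exact this

end Over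

/-- `z` is integral at the valuation with value `a`. -/
def HasVal {v : Place K F} (o : Over v Ω) (z : Ω) (a : K) : Prop :=
  ∃ h : z ∈ o.V, IsLocalRing.residue o.V ⟨z, h⟩ = o.cres a

namespace HasVal

variable {v : Place K F} {o : Over v Ω} {z w : Ω} {a b : K}

theorem unique (h : HasVal o z a) (h' : HasVal o z b) : a = b :=
  o.cres.injective (h.2.symm.trans h'.2)

theorem of_const (o : Over v Ω) (a : K) :
    HasVal o (algebraMap F Ω (algebraMap K F a)) a := ⟨(o.cst a).2, rfl⟩

theorem add (h : HasVal o z a) (h' : HasVal o w b) : HasVal o (z + w) (a + b) :=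
  ⟨add_mem h.1 h'.1, by
    rw [map_add, ← h.2, ← h'.2]; exact map_add (IsLocalRing.residue o.V) ⟨z, h.1⟩ ⟨w, h'.1⟩⟩

theorem mul (h : HasVal o z a) (h' : HasVal o w b) : HasVal o (z * w) (a * b) :=
  ⟨mul_mem h.1 h'.1, by
    rw [map_mul, ← h.2, ← h'.2]; exact map_mul (IsLocalRing.residue o.V) ⟨z, h.1⟩ ⟨w, h'.1⟩⟩

theorem sub (h : HasVal o z a) (h' : HasVal o w b) : HasVal o (z - w) (a - b) :=
  ⟨sub_mem h.1 h'.1, by
    rw [map_sub, ← h.2, ← h'.2]; exact map_sub (IsLocalRing.residue o.V) ⟨z, h.1⟩ ⟨w, h'.1⟩⟩

theorem of_zero (o : Over v Ω) : HasVal o 0 0 := by simpa using of_const o 0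

theorem sum {ι : Type*} (s : Finset ι) {z : ι → Ω} {a : ι → K} (h : ∀ i ∈ s, HasVal o (z i) (a i)) :
    HasVal o (∑ i ∈ s, z i) (∑ i ∈ s, a i) := by
  classical
  induction s using Finset.induction_on with
  | empty => exact of_zero o
  | insert i s hi ih =>
    rw [Finset.sum_insert hi, Finset.sum_insert hi]
    exact (h i (Finset.mem_insert_self _ _)).add (ih fun j hj => h j (Finset.mem_insert_of_mem hj))

theorem ne_zero (h : HasVal o z a) (ha : a ≠ 0) : z ≠ 0 := fun h0 =>
  ha (h.unique (h0 ▸ of_zero o))

theorem val_ne_zero (h : HasVal o z a) (h' : HasVal o z⁻¹ b) (hz : z ≠ 0) : a ≠ 0 := by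
  intro ha
  have h1 := h.mul h'
  rw [mul_inv_cancel₀ hz, ha, zero_mul] at h1
  exact one_ne_zero (h1.unique (by simpa using of_const o 1)).symm

theorem of_ord (o : Over v Ω) {f : F} {a : K} (h : OrdGE v 1 (f - algebraMap K F a)) :
    HasVal o (algebraMap F Ω f) a := by
  have hf : OrdGE v 0 f := by simpa using (h.mono zero_le_one).add (ordGE_algebraMap a)
  exact ⟨o.mem f (hf.mem le_rfl), o.residue_reg (f := ⟨f, hf.mem le_rfl⟩) h⟩

theorem eval₂ {σ : Type*} {z : σ → Ω} {a : σ → K} (h : ∀ s, HasVal o (z s) (a s))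
    (G : MvPolynomial σ K) :
    HasVal o (MvPolynomial.eval₂ ((algebraMap F Ω).comp (algebraMap K F)) z G)
      (MvPolynomial.eval a G) := by
  induction G using MvPolynomial.induction_on with
  | C c => simpa using of_const o c
  | add G H hG hH => rw [MvPolynomial.eval₂_add, map_add]; exact hG.add hH
  | mul_X G i hG =>
    rw [MvPolynomial.eval₂_mul, MvPolynomial.eval₂_X, map_mul, MvPolynomial.eval_X]
    exact hG.mul (h i)

end HasVal

variable [IsAlgClosed K] [IsFF K F] [Algebra.IsAlgebraic F Ω]

/-- Finitely many elements of an algebraic extension take values in `K` at almost all places. -/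
theorem finite_bad (T : Finset Ω) : {v : Place K F | ∃ o : Over v Ω, ∃ z ∈ T,
    ¬∃ a : K, HasVal o z a}.Finite := by
  classical
  let q : Ω → Polynomial F := fun z => minpoly F z
  refine Set.Finite.subset (Set.Finite.biUnion T.finite_toSet fun z _ =>
    Set.Finite.biUnion (Finset.range ((q z).natDegree + 1)).finite_toSet fun i _ =>
      finite_ord_ne_zero (K := K) ((q z).coeff i)) ?_
  rintro v ⟨o, z, hz, hbad⟩
  by_contra hgood
  simp only [Set.mem_iUnion, Finset.mem_coe, Finset.mem_range, Set.mem_ofPred_eq, not_exists,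
    not_not] at hgood
  have hmon : (q z).Monic := minpoly.monic (Algebra.IsIntegral.isIntegral z)
  have hreg : ∀ i, OrdGE v 0 ((q z).coeff i) := fun i => by
    rcases lt_or_ge i ((q z).natDegree + 1) with hi | hi
    · exact Or.inr (hgood z hz i hi).ge
    · exact Or.inl (Polynomial.coeff_eq_zero_of_natDegree_lt (by omega))
  obtain ⟨p, hp, -, hpmon⟩ := Polynomial.lifts_and_degree_eq_and_monic
    (f := v.toValuationSubring.subtype) (p := q z)
    ((Polynomial.lifts_iff_coeff_lifts _).2 fun i => ⟨⟨_, mem_iff_ordGE.2 (hreg i)⟩, rfl⟩) hmon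
  have hroot : (p.map o.reg).eval₂ o.V.toSubring.subtype z = 0 := by
    rw [Polynomial.eval₂_map]
    have h0 : Polynomial.aeval z (q z) = 0 := minpoly.aeval F z
    rw [← hp, Polynomial.aeval_def, Polynomial.eval₂_map] at h0
    exact h0
  have hint : IsIntegral o.V z := ⟨p.map o.reg, hpmon.map _, hroot⟩
  obtain ⟨w, hw⟩ := IsIntegrallyClosed.isIntegral_iff.mp hint
  have hzV : z ∈ o.V := hw ▸ w.2
  suffices h : ∃ a : K, IsLocalRing.residue o.V ⟨z, hzV⟩ = o.cres a from
    hbad (h.imp fun a ha => ⟨hzV, ha⟩)
  set res := IsLocalRing.residue o.V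
  have hcomp : ∀ f : v.toValuationSubring, res (o.reg f) = o.cres (evalAt v f) := fun f =>
    o.residue_reg (evalAt_spec v f)
  let : Algebra K (IsLocalRing.ResidueField o.V) := o.cres.toAlgebra
  have hz' : IsIntegral K (res ⟨z, hzV⟩) := by
    let evh : v.toValuationSubring →+* K :=
      { toFun := evalAt v
        map_one' := o.cres.injective (by rw [← hcomp, map_one, map_one, map_one])
        map_zero' := o.cres.injective (by rw [← hcomp, map_zero, map_zero, map_zero])
        map_add' := fun a b => o.cres.injective (by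
          rw [map_add, ← hcomp, ← hcomp, ← hcomp, map_add, map_add])
        map_mul' := fun a b => o.cres.injective (by
          rw [map_mul, ← hcomp, ← hcomp, ← hcomp, map_mul, map_mul]) }
    refine ⟨p.map evh, hpmon.map _, ?_⟩
    rw [Polynomial.eval₂_map]
    have h1 : Polynomial.eval₂ o.reg (⟨z, hzV⟩ : o.V) p = 0 := by
      refine Subtype.val_injective ?_
      rw [ZeroMemClass.coe_zero, ← hroot, Polynomial.eval₂_map]
      exact Polynomial.hom_eval₂ p o.reg o.V.toSubring.subtype ⟨z, hzV⟩
    have h2 := congrArg res h1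
    rw [map_zero, Polynomial.hom_eval₂] at h2
    rw [← h2]
    congr 1
    exact RingHom.ext fun f => (hcomp f).symm
  exact (minpoly.mem_range_of_degree_eq_one K _
    (IsAlgClosed.degree_eq_one_of_irreducible K (minpoly.irreducible hz'))).imp fun a ha => ha.symm

end FermatAgent.MW.Halve
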