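import Fermat.Agent.Curve.Lift.Hensel
import Fermat.Agent.MW.Halve.Spec
import Fermat.Agent.MW.Halve.Frame

/-!
# Halving at the generic point: solving the system by Hensel's lemma

The coefficients of a combination of the frame and the marked points satisfy equations saying
that the combination vanishes doubly at those points. The reduced system has an invertible
Jacobian, so it has a solution over the algebraic closure of the function field.
-/

set_option autoImplicit false

noncomputable section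

open AlgebraicCurve MvPolynomial

namespace FermatAgent.MW.Halve

open FermatAgent.Curve

section General

/-- Hensel's lemma, with the Jacobian condition as triviality of its kernel. -/
theorem exists_zero_of_kernel {Ω : Type} [Field Ω] [IsAlgClosed Ω] (A : ValuationSubring Ω)
    {σ : Type} [Fintype σ] (f : σ → MvPolynomial σ A) (x0 : σ → A)
    (h0 : ∀ i, IsLocalRing.residue A (eval x0 (f i)) = 0)
    (hker : ∀ u : σ → IsLocalRing.ResidueField A,
      (∀ i, ∑ j, IsLocalRing.residue A (eval x0 (pderiv j (f i))) * u j = 0) → u = 0) :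
    ∃ x : σ → A, (∀ i, IsLocalRing.residue A (x i) = IsLocalRing.residue A (x0 i)) ∧
      ∀ i, eval x (f i) = 0 := by
  classical
  let e := Fintype.equivFin σ
  let f' : Fin (Fintype.card σ) → MvPolynomial (Fin (Fintype.card σ)) A :=
    fun i => rename e (f (e.symm i))
  have hev : ∀ (z : Fin (Fintype.card σ) → A) (p : MvPolynomial σ A),
      eval z (rename e p) = eval (z ∘ e) p := fun z p => eval_rename e z p
  set x0' : Fin (Fintype.card σ) → A := x0 ∘ e.symm
  have hx0 : x0' ∘ e = x0 := funext fun s => by simp [x0']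
  have hJ : IsUnit (eval x0' (jacDet f')) := by
    rw [← IsLocalRing.residue_ne_zero_iff_isUnit, jacDet, RingHom.map_det, RingHom.map_det]
    intro hdet
    obtain ⟨u, hu0, hu⟩ := Matrix.exists_mulVec_eq_zero_iff.2 hdet
    refine hu0 ?_
    have h := hker (u ∘ e) fun i => ?_
    · funext t
      simpa using congrFun h (e.symm t)
    have h1 := congrFun hu (e i)
    simp only [Matrix.mulVec, dotProduct, RingHom.mapMatrix_apply, Matrix.map_apply,
      Matrix.of_apply, Pi.zero_apply] at h1
    rw [← h1]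
    refine Fintype.sum_equiv e _ _ fun j => ?_
    simp only [f', Equiv.symm_apply_apply, pderiv_rename e.injective, hev, hx0, Function.comp_apply]
  obtain ⟨x, hx, hzero⟩ := exists_zero_of_jacobian A f' x0'
    (fun i => by simp only [f', hev, hx0]; exact h0 _) hJ
  refine ⟨x ∘ e, fun i => by simpa [x0'] using hx (e i), fun i => ?_⟩
  have := hzero (e i)
  simpa [f', hev] using this

/-- The differential at `x0` modulo the maximal ideal, applied to `u`. -/
def resDiff {σ : Type*} [Fintype σ] {A : Type*} [CommRing A] [IsLocalRing A] (x0 : σ → A)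
    (u : σ → IsLocalRing.ResidueField A) (p : MvPolynomial σ A) : IsLocalRing.ResidueField A :=
  ∑ j, IsLocalRing.residue A (eval x0 (pderiv j p)) * u j

variable {σ : Type*} [Fintype σ] {A : Type*} [CommRing A] [IsLocalRing A] (x0 : σ → A)
  (u : σ → IsLocalRing.ResidueField A)

theorem resDiff_add (p q : MvPolynomial σ A) :
    resDiff x0 u (p + q) = resDiff x0 u p + resDiff x0 u q := by
  simp [resDiff, add_mul, Finset.sum_add_distrib]

theorem resDiff_mul (p q : MvPolynomial σ A) :
    resDiff x0 u (p * q) = IsLocalRing.residue A (eval x0 p) * resDiff x0 u q +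
      resDiff x0 u p * IsLocalRing.residue A (eval x0 q) := by
  simp only [resDiff, pderiv_mul, map_add, map_mul, Finset.mul_sum, Finset.sum_mul,
    ← Finset.sum_add_distrib]
  exact Finset.sum_congr rfl fun j _ => by ring

theorem resDiff_C (a : A) : resDiff x0 u (C a) = 0 := by simp [resDiff]

theorem resDiff_X (i : σ) : resDiff x0 u (X i) = u i := by
  classical
  rw [resDiff, Finset.sum_eq_single i (fun j _ hj => by rw [pderiv_X_of_ne hj.symm]; simp)
    (fun h => absurd (Finset.mem_univ i) h), pderiv_X_self, map_one, map_one, one_mul]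

theorem resDiff_sum {ι : Type*} (s : Finset ι) (p : ι → MvPolynomial σ A) :
    resDiff x0 u (∑ i ∈ s, p i) = ∑ i ∈ s, resDiff x0 u (p i) := by
  simp only [resDiff, map_sum, Finset.sum_mul]
  exact Finset.sum_comm

end General

variable {K F : Type} [Field K] [Field F] [Algebra K F] [IsFF K F] [IsAlgClosed K] [CharZero K]
variable {P0 : Place K F} (Φ : Frame P0)

namespace Frame

local notation "Ω" => AlgebraicClosure F

/-- Constants in the algebraic closure. -/
abbrev kΩ : K →+* Ω := (algebraMap F Ω).comp (algebraMap K F)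

/-- Unknowns: coefficients, abscissas, ordinates. -/
abbrev Idx : Type := Option ↥Φ.Z ⊕ (↥Φ.Z ⊕ ↥Φ.Z)

/-- The univariate part `den · h²`. -/
def H0 : MvPolynomial (Fin 2) K := Polynomial.aeval (X 0) (Φ.den * Φ.hx ^ 2)

/-- The function `h² + c₀ g₀ + Σ cᵥ gᵥ` on the plane, with denominator. -/
def planeEq (T : MvPolynomial (Fin 2) K → MvPolynomial (Fin 2) K) {R : Type*} [CommRing R]
    (ev : MvPolynomial (Fin 2) K → R) (c : Option ↥Φ.Z → R) : R :=
  ev (T Φ.H0) + c none * ev (T Φ.G0) + ∑ i : ↥Φ.Z, c (some i) * ev (T (Φ.G i.1))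

omit [IsFF K F] [IsAlgClosed K] [CharZero K] in
theorem eval_H0 {v : Place K F} (hv : v ∈ Φ.Z) :
    eval (Φ.p v) Φ.H0 = 0 ∧ eval (Φ.p v) (pderiv 0 Φ.H0) = 0 ∧ pderiv 1 Φ.H0 = 0 ∧
      eval (Φ.p v) (pderiv 0 (pderiv 0 Φ.H0)) =
        2 * Φ.den.eval (Φ.p v 0) * Φ.hx.derivative.eval (Φ.p v 0) ^ 2 := by
  have hd : ∀ q : Polynomial K, pderiv (0 : Fin 2) (Polynomial.aeval (X 0) q) =
      Polynomial.aeval (X 0) q.derivative := fun q => by
    rw [Derivation.map_aeval, pderiv_X_self, smul_eq_mul, mul_one]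
  refine ⟨?_, ?_, ?_, ?_⟩
  · simp [H0, eval_aeval_X, Φ.hx_eval v hv]
  · rw [H0, hd, eval_aeval_X]
    simp [Polynomial.derivative_pow, Φ.hx_eval v hv]
  · rw [H0, Derivation.map_aeval, pderiv_X_of_ne (by decide), smul_zero]
  · rw [H0, hd, hd, eval_aeval_X]
    simp [Polynomial.derivative_pow, Φ.hx_eval v hv]
    ring

omit [IsFF K F] [IsAlgClosed K] [CharZero K] in
theorem reg_mul (f : F) (hf : OrdGE P0 (-1) f) : Φ.M.x * f ∈ P0.toValuationSubring := by
  rw [mem_iff_ordGE]
  exact (OrdGE.mul (n := 1) (Or.inr Φ.ord_x.ge) hf).mono (by omega)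

/-- A solution over the algebraic closure of the halving system at the generic point. -/
structure Sol where
  /-- the coefficients of the combination -/
  c : Option ↥Φ.Z → Ω
  /-- the first coordinates of the points -/
  X : ↥Φ.Z → Ω
  /-- the second coordinates of the points -/
  Y : ↥Φ.Z → Ω
  gen : algebraMap F Ω (Polynomial.aeval Φ.M.x (Φ.hx ^ 2)) + c none * algebraMap F Ω Φ.g0 +
    ∑ i : ↥Φ.Z, c (some i) * algebraMap F Ω (Φ.g i.1) = 0
  plane : ∀ j, Φ.planeEq id (eval₂ (kΩ (K := K) (F := F)) ![X j, Y j]) c = 0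
  tangent : ∀ j, Φ.planeEq (tang Φ.M.R) (eval₂ (kΩ (K := K) (F := F)) ![X j, Y j]) c = 0
  curve : ∀ j, eval₂ (kΩ (K := K) (F := F)) ![X j, Y j] Φ.M.R = 0
  den_ne : ∀ j,
    eval₂ (kΩ (K := K) (F := F)) ![X j, Y j] (Polynomial.aeval (MvPolynomial.X 0) Φ.den) ≠ 0
  smooth : ∀ j, eval₂ (kΩ (K := K) (F := F)) ![X j, Y j] (pderiv 1 Φ.M.R) ≠ 0
  X_ne : ∀ j, X j ≠ 0 ∧ X j - algebraMap F Ω Φ.M.x ≠ 0
  distinct : ∀ i j, i ≠ j → X i - X j ≠ 0 ∨ Y i - Y j ≠ 0

/-! ### The system over the valuation ring of a place above `P0` -/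

variable (o : Halve.Over P0 (AlgebraicClosure F))

section

omit [IsFF K F] [IsAlgClosed K] [CharZero K]

/-- The reduced solution: zero coefficients and the marked points. -/
private def start : Φ.Idx → o.V :=
  Sum.elim (fun _ => 0) (Sum.elim (fun j => o.cst (Φ.p j.1 0)) fun j => o.cst (Φ.p j.1 1))

/-- Substitution of the unknown `j`-th point. -/
private def substPt (j : ↥Φ.Z) : MvPolynomial (Fin 2) K →+* MvPolynomial Φ.Idx o.V :=
  eval₂Hom (C.comp o.cst) ![X (Sum.inr (Sum.inl j)), X (Sum.inr (Sum.inr j))]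

/-- The unknown coefficients. -/
private def coeffVar (i : Option ↥Φ.Z) : MvPolynomial Φ.Idx o.V := X (Sum.inl i)

/-- `h(x)²` is regular at `P0`. -/
private lemma ordGE_hxSq : OrdGE P0 0 (Polynomial.aeval Φ.M.x (Φ.hx ^ 2)) := by
  have hxreg : OrdGE P0 0 Φ.M.x := Or.inr (by rw [Φ.ord_x]; exact zero_le_one)
  refine Polynomial.induction_on' (Φ.hx ^ 2) (fun a b ha hb => by rw [map_add]; exact ha.add hb)
    fun n a => ?_
  rw [Polynomial.aeval_monomial]
  exact ((ordGE_algebraMap a).mul (hxreg.pow n)).mono (by omega)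

/-- `x f` in the valuation ring, for `f` with at most a simple pole at `P0`. -/
private def regCoeff (f : F) (hf : OrdGE P0 (-1) f) : o.V := o.reg ⟨_, Φ.reg_mul f hf⟩

/-- The equations: the generic one, then plane, tangency and curve equations at each point. -/
private def sysEqs : Φ.Idx → MvPolynomial Φ.Idx o.V :=
  Sum.elim
    (fun i => i.elim
      (C (Φ.regCoeff o _ (Φ.ordGE_hxSq.mono (by omega))) +
        Φ.coeffVar o none * C (Φ.regCoeff o Φ.g0 (Or.inr Φ.g0_ord.2.ge)) +
        ∑ i : ↥Φ.Z, Φ.coeffVar o (some i) *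
          C (Φ.regCoeff o _ ((Φ.g_reg i.1 i.2).mono (by omega))))
      fun j => Φ.planeEq id (Φ.substPt o j) (Φ.coeffVar o))
    (Sum.elim (fun j => Φ.planeEq (tang Φ.M.R) (Φ.substPt o j) (Φ.coeffVar o))
      fun j => Φ.substPt o j Φ.M.R)

/-- `x f` reduces to zero if `f` is regular at `P0`. -/
private lemma residue_regCoeff_eq_zero {f : F} (hf : OrdGE P0 (-1) f) (h : OrdGE P0 0 f) :
    IsLocalRing.residue o.V (Φ.regCoeff o f hf) = 0 := by
  rw [regCoeff, o.residue_reg (a := 0) (by
    rw [map_zero, sub_zero]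
    exact (OrdGE.mul (n := 1) (Or.inr Φ.ord_x.ge) h).mono (by omega)), map_zero]

/-- Constants reduce to constants. -/
private lemma residue_cst (a : K) : IsLocalRing.residue o.V (o.cst a) = o.cres a := rfl

/-- A substituted polynomial reduces to its value at the marked point. -/
private lemma residue_eval_substPt (j : ↥Φ.Z) (G : MvPolynomial (Fin 2) K) :
    IsLocalRing.residue o.V (eval (Φ.start o) (Φ.substPt o j G)) =
      o.cres (eval (Φ.p j.1) G) := by
  induction G using MvPolynomial.induction_on with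
  | C a => simp [substPt, residue_cst]
  | add G H hG hH => simp only [map_add, hG, hH]
  | mul_X G i hG =>
    simp only [map_mul, hG, eval_X]
    congr 1
    fin_cases i <;> simp [substPt, start, residue_cst]

/-- The reduced differential of a substituted polynomial. -/
private lemma resDiff_substPt (u : Φ.Idx → IsLocalRing.ResidueField o.V) (j : ↥Φ.Z)
    (G : MvPolynomial (Fin 2) K) : resDiff (Φ.start o) u (Φ.substPt o j G) =
      o.cres (eval (Φ.p j.1) (pderiv 0 G)) * u (Sum.inr (Sum.inl j)) +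
      o.cres (eval (Φ.p j.1) (pderiv 1 G)) * u (Sum.inr (Sum.inr j)) := by
  induction G using MvPolynomial.induction_on with
  | C a => simp [substPt, resDiff_C]
  | add G H hG hH => simp only [map_add, resDiff_add, hG, hH]; ring
  | mul_X G i hG =>
    rw [map_mul, resDiff_mul, hG, residue_eval_substPt]
    fin_cases i <;>
      simp only [substPt, Fin.zero_eta, Fin.mk_one, eval₂Hom_X', Matrix.cons_val_zero,
        Matrix.cons_val_one, resDiff_X, pderiv_mul, map_add, map_mul, eval_X, eval_X,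
        pderiv_X_self, pderiv_X_of_ne (show (1 : Fin 2) ≠ 0 by decide),
        pderiv_X_of_ne (show (0 : Fin 2) ≠ 1 by decide), mul_zero, mul_one,
        add_zero, start, Sum.elim_inr, Sum.elim_inl, eval_X, residue_cst] <;>
      ring

/-- The coefficients start at zero. -/
private lemma residue_eval_coeffVar (i : Option ↥Φ.Z) :
    IsLocalRing.residue o.V (eval (Φ.start o) (Φ.coeffVar o i)) = 0 := by simp [coeffVar, start]

/-- The reduced plane equations. -/
private lemma residue_eval_planeEq (T : MvPolynomial (Fin 2) K → MvPolynomial (Fin 2) K)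
    (j : ↥Φ.Z) :
    IsLocalRing.residue o.V (eval (Φ.start o) (Φ.planeEq T (Φ.substPt o j) (Φ.coeffVar o))) =
      o.cres (eval (Φ.p j.1) (T Φ.H0)) := by
  simp [planeEq, map_add, map_mul, map_sum, residue_eval_coeffVar, residue_eval_substPt]

/-- The reduced differentials of the plane equations. -/
private lemma resDiff_planeEq (u : Φ.Idx → IsLocalRing.ResidueField o.V)
    (T : MvPolynomial (Fin 2) K → MvPolynomial (Fin 2) K) (j : ↥Φ.Z) :
    resDiff (Φ.start o) u (Φ.planeEq T (Φ.substPt o j) (Φ.coeffVar o)) =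
      resDiff (Φ.start o) u (Φ.substPt o j (T Φ.H0)) +
        u (Sum.inl none) * o.cres (eval (Φ.p j.1) (T Φ.G0)) +
        ∑ i : ↥Φ.Z, u (Sum.inl (some i)) * o.cres (eval (Φ.p j.1) (T (Φ.G i.1))) := by
  simp only [planeEq, resDiff_add, resDiff_sum, resDiff_mul, residue_eval_coeffVar, zero_mul,
    zero_add, residue_eval_substPt]
  simp only [coeffVar, resDiff_X]

/-- The value of a substituted polynomial in `Ω`. -/
private lemma coe_eval_substPt (z : Φ.Idx → o.V) (j : ↥Φ.Z) (G : MvPolynomial (Fin 2) K) :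
    ((eval z (Φ.substPt o j G) : o.V) : Ω) = eval₂ (kΩ (K := K) (F := F))
      ![(z (Sum.inr (Sum.inl j)) : Ω), (z (Sum.inr (Sum.inr j)) : Ω)] G := by
  induction G using MvPolynomial.induction_on with
  | C a => simp [substPt]; rfl
  | add G H hG hH => simp only [map_add, eval₂_add, AddMemClass.coe_add, hG, hH]
  | mul_X G i hG =>
    simp only [map_mul, MulMemClass.coe_mul, eval₂_mul, hG, eval₂_X]
    congr 1
    fin_cases i <;> simp [substPt]

/-- The value of a plane equation in `Ω`. -/
private lemma coe_eval_planeEq (z : Φ.Idx → o.V)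
    (T : MvPolynomial (Fin 2) K → MvPolynomial (Fin 2) K) (j : ↥Φ.Z) :
    ((eval z (Φ.planeEq T (Φ.substPt o j) (Φ.coeffVar o)) : o.V) : Ω) =
      Φ.planeEq T (eval₂ (kΩ (K := K) (F := F))
        ![(z (Sum.inr (Sum.inl j)) : Ω), (z (Sum.inr (Sum.inr j)) : Ω)])
        fun i => (z (Sum.inl i) : Ω) := by
  simp [planeEq, map_add, map_mul, map_sum, coe_eval_substPt, coeffVar]

/-- The start solves the system modulo the maximal ideal. -/
private lemma residue_eval_sysEqs (i : Φ.Idx) :
    IsLocalRing.residue o.V (eval (Φ.start o) (Φ.sysEqs o i)) = 0 := by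
  rcases i with (_ | j) | j | j <;> simp only [sysEqs, Sum.elim_inl, Sum.elim_inr, Option.elim]
  · simp only [map_add, map_mul, map_sum, eval_C, residue_eval_coeffVar, zero_mul,
      Finset.sum_const_zero, add_zero]
    exact Φ.residue_regCoeff_eq_zero o _ Φ.ordGE_hxSq
  · rw [residue_eval_planeEq, id, (Φ.eval_H0 j.2).1, map_zero]
  · obtain ⟨-, h2, h3, -⟩ := Φ.eval_H0 j.2
    rw [residue_eval_planeEq, show eval (Φ.p j.1) (tang Φ.M.R Φ.H0) = 0 by simp [tang, h2, h3],
      map_zero]
  · rw [residue_eval_substPt, (Φ.point j.1 j.2).2.1, map_zero]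

end

omit [CharZero K] in
/-- `x g₀` is a unit at `P0`. -/
private lemma residue_regCoeff_g0_ne_zero :
    IsLocalRing.residue o.V (Φ.regCoeff o Φ.g0 (Or.inr Φ.g0_ord.2.ge)) ≠ 0 := by
  set r : P0.toValuationSubring := ⟨_, Φ.reg_mul Φ.g0 (Or.inr Φ.g0_ord.2.ge)⟩
  show IsLocalRing.residue o.V (o.reg r) ≠ 0
  rw [o.residue_reg (evalAt_spec P0 r)]
  intro h
  have h1 := evalAt_spec P0 r
  rw [(map_eq_zero _).1 h, map_zero, sub_zero] at h1
  have hx0 : Φ.M.x ≠ 0 := fun h0 => by simpa [h0] using Φ.ord_x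
  have h2 : OrdGE P0 1 (Φ.M.x * Φ.g0) := h1
  rw [ordGE_iff_le (mul_ne_zero hx0 Φ.g0_ord.1), P0.ord_mul hx0 Φ.g0_ord.1, Φ.ord_x,
    Φ.g0_ord.2] at h2
  omega

/-- The reduced Jacobian of the system is injective. -/
private lemma sysEqs_kernel (u : Φ.Idx → IsLocalRing.ResidueField o.V)
    (hu : ∀ i, resDiff (Φ.start o) u (Φ.sysEqs o i) = 0) : u = 0 := by
  have hc : u (Sum.inl none) = 0 := by
    have h := hu (Sum.inl none)
    simp only [sysEqs, Sum.elim_inl, Option.elim, resDiff_add, resDiff_sum, resDiff_mul, resDiff_C,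
      residue_eval_coeffVar, zero_add, mul_zero, eval_C] at h
    simp only [coeffVar, resDiff_X] at h
    rw [Finset.sum_eq_zero fun i _ => by
      rw [Φ.residue_regCoeff_eq_zero o _ (Φ.g_reg i.1 i.2), mul_zero], add_zero] at h
    exact (mul_eq_zero.1 h).resolve_right (Φ.residue_regCoeff_g0_ne_zero o)
  have hci : ∀ j : ↥Φ.Z, u (Sum.inl (some j)) = 0 := by
    intro j
    have h := hu (Sum.inl (some j))
    obtain ⟨h1, h2, h3, -⟩ := Φ.eval_H0 j.2
    simp only [sysEqs, Sum.elim_inl, Option.elim, resDiff_planeEq, resDiff_substPt, id, h2, h3,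
      map_zero, zero_mul, hc, zero_add] at h
    rw [Finset.sum_eq_single j (fun i _ hij => by
      rw [Φ.G_eval i.1 i.2 j.1 j.2 (fun e => hij (Subtype.ext e)), map_zero, mul_zero])
      (fun h => absurd (Finset.mem_univ j) h)] at h
    exact (mul_eq_zero.1 h).resolve_right ((_root_.map_ne_zero _).2 (Φ.G_eval_ne j.1 j.2))
  have hux : ∀ j : ↥Φ.Z, u (Sum.inr (Sum.inl j)) = 0 := by
    intro j
    have h := hu (Sum.inr (Sum.inl j))
    obtain ⟨h1, h2, h3, h4⟩ := Φ.eval_H0 j.2
    simp only [sysEqs, Sum.elim_inr, Sum.elim_inl, resDiff_planeEq, resDiff_substPt, hc, hci,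
      zero_mul, Finset.sum_const_zero, add_zero] at h
    rw [tang, h3, zero_mul, sub_zero, pderiv_mul, pderiv_mul] at h
    simp only [map_add, map_mul, h2, h4, zero_mul, add_zero] at h
    rw [show eval (Φ.p j.1) (pderiv 1 (pderiv 0 Φ.H0)) = 0 by
      rw [H0, Derivation.map_aeval, pderiv_X_self, smul_eq_mul, mul_one, Derivation.map_aeval,
        pderiv_X_of_ne (by decide), smul_zero, map_zero]] at h
    simp only [zero_mul, map_zero, add_zero] at h
    refine (mul_eq_zero.1 h).resolve_left ?_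
    rw [← map_mul, ← map_mul, ← map_mul]
    refine (_root_.map_ne_zero _).2 ?_
    exact mul_ne_zero (mul_ne_zero (mul_ne_zero two_ne_zero (Φ.den_ne j.1 j.2))
      (pow_ne_zero _ (Φ.hx_deriv j.1 j.2))) (Φ.point j.1 j.2).2.2
  have huy : ∀ j : ↥Φ.Z, u (Sum.inr (Sum.inr j)) = 0 := by
    intro j
    have h := hu (Sum.inr (Sum.inr j))
    simp only [sysEqs, Sum.elim_inr, resDiff_substPt, hux, mul_zero, zero_add] at h
    exact (mul_eq_zero.1 h).resolve_left ((_root_.map_ne_zero _).2 (Φ.point j.1 j.2).2.2)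
  funext i
  rcases i with (_ | j) | j | j
  · exact hc
  · exact hci j
  · exact hux j
  · exact huy j

omit o in
/-- **Halving at the generic point**: the system has a solution over the algebraic closure of the
function field. -/
theorem exists_sol : Nonempty Φ.Sol := by
  classical
  obtain ⟨o⟩ : Nonempty (Over P0 Ω) := nonempty_over P0
  obtain ⟨z, hz, hze⟩ := exists_zero_of_kernel o.V (Φ.sysEqs o) (Φ.start o)
    (Φ.residue_eval_sysEqs o) (Φ.sysEqs_kernel o)
  have hval : ∀ s a, IsLocalRing.residue o.V (Φ.start o s) = o.cres a → HasVal o (z s : Ω) a :=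
    fun s a h => ⟨(z s).2, (hz s).trans h⟩
  have hvX : ∀ j, HasVal o (z (Sum.inr (Sum.inl j)) : Ω) (Φ.p j.1 0) := fun j =>
    hval _ _ (by simp [start, residue_cst])
  have hvY : ∀ j, HasVal o (z (Sum.inr (Sum.inr j)) : Ω) (Φ.p j.1 1) := fun j =>
    hval _ _ (by simp [start, residue_cst])
  have hev : ∀ j G, HasVal o (eval₂ (kΩ (K := K) (F := F))
      ![(z (Sum.inr (Sum.inl j)) : Ω), (z (Sum.inr (Sum.inr j)) : Ω)] G) (eval (Φ.p j.1) G) :=
    fun j G => HasVal.eval₂ (fun s => by fin_cases s <;> simp [hvX, hvY]) G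
  refine ⟨⟨fun i => (z (Sum.inl i) : Ω), fun j => (z (Sum.inr (Sum.inl j)) : Ω),
    fun j => (z (Sum.inr (Sum.inr j)) : Ω), ?_, fun j => ?_, fun j => ?_, fun j => ?_,
    fun j => (hev j _).ne_zero ?_, fun j => (hev j _).ne_zero (Φ.point j.1 j.2).2.2,
    fun j => ⟨(hvX j).ne_zero (Φ.p0_ne j.1 j.2),
      ((hvX j).sub (HasVal.of_ord o (a := 0) ?_)).ne_zero (by simpa using Φ.p0_ne j.1 j.2)⟩,
    fun i j hij => ?_⟩⟩
  · have h := congrArg (fun a : o.V => (a : Ω)) (hze (Sum.inl none))
    have hx0 : algebraMap F Ω Φ.M.x ≠ 0 :=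
      (_root_.map_ne_zero _).2 fun h0 => by simpa [h0] using Φ.ord_x
    refine (mul_eq_zero.1 (?_ : algebraMap F Ω Φ.M.x * _ = 0)).resolve_left hx0
    rw [← show ((0 : o.V) : Ω) = 0 from rfl, ← h]
    simp [sysEqs, regCoeff, coeffVar, o.coe_reg, map_mul, mul_add, Finset.mul_sum, mul_left_comm]
  · rw [← coe_eval_planeEq]
    simpa [sysEqs] using congrArg (fun a : o.V => (a : Ω)) (hze (Sum.inl (some j)))
  · rw [← coe_eval_planeEq]
    simpa [sysEqs] using congrArg (fun a : o.V => (a : Ω)) (hze (Sum.inr (Sum.inl j)))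
  · rw [← coe_eval_substPt]
    simpa [sysEqs] using congrArg (fun a : o.V => (a : Ω)) (hze (Sum.inr (Sum.inr j)))
  · rw [eval_aeval_X]; exact Φ.den_ne j.1 j.2
  · rw [map_zero, sub_zero]; exact Or.inr Φ.ord_x.ge
  · by_contra hcon
    push Not at hcon
    obtain ⟨h1, h2⟩ := hcon
    have e0 := ((hvX i).sub (hvX j)).unique (h1 ▸ HasVal.of_zero o)
    have e1 := ((hvY i).sub (hvY j)).unique (h2 ▸ HasVal.of_zero o)
    refine hij (Subtype.ext (Model.At.eq (Φ.point j.1 j.2).2 ?_ (Φ.point j.1 j.2).1))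
    have hp : Φ.p i.1 = Φ.p j.1 := funext fun s => by
      fin_cases s
      · exact sub_eq_zero.1 e0
      · exact sub_eq_zero.1 e1
    exact hp ▸ (Φ.point i.1 i.2).1

end Frame

end FermatAgent.MW.Halve
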